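import Fermat.Agent.S25.CONN.Points

set_option autoImplicit false

universe u

namespace Fermat.Agent.S25.CONN.Triv

open Fermat.Agent.S25 GluedModule

open scoped TensorProduct

/-! ### `f ≠ 1` -/

/-- A surjective ring map to a nontrivial ring is not standard smooth of relative dimension
one. -/
theorem not_isStandardSmooth_of_surjective {R S : Type u} [CommRing R] [CommRing S] [Nontrivial S]
    (φ : R →+* S) (hφ : Function.Surjective φ) :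
    ¬ RingHom.IsStandardSmoothOfRelativeDimension 1 φ := by
  intro h
  algebraize [φ]
  have h1 := Algebra.IsStandardSmoothOfRelativeDimension.rank_kaehlerDifferential (R := R) (S := S) 1
  have : Subsingleton (Ω[S⁄R]) := KaehlerDifferential.subsingleton_of_surjective R S hφ
  rw [rank_subsingleton'] at h1
  simp at h1

/-- A finite-dimensional domain over an algebraically closed field is not locally standard
smooth of relative dimension one. -/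
theorem not_locally_smooth_of_finite (k A : Type u) [Field k] [IsAlgClosed k] [CommRing A]
    [IsDomain A] [Algebra k A] [Module.Finite k A] :
    ¬ RingHom.Locally (RingHom.IsStandardSmoothOfRelativeDimension 1) (algebraMap k A) := by
  intro h
  have hbij : Function.Bijective (algebraMap k A) :=
    IsAlgClosed.algebraMap_bijective_of_isIntegral
  obtain ⟨s, hs, hP⟩ := h
  have hex : ∃ t ∈ s, t ≠ 0 := by
    by_contra hcon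
    push Not at hcon
    have h0 : Ideal.span s = ⊥ := by rw [Ideal.span_eq_bot]; exact hcon
    rw [h0] at hs
    exact bot_ne_top hs
  obtain ⟨t, hts, ht0⟩ := hex
  have htu : IsUnit t := by
    obtain ⟨c, rfl⟩ := hbij.2 t
    have hc : c ≠ 0 := fun h => ht0 (by rw [h, map_zero])
    exact (IsUnit.mk0 c hc).map _
  have e := IsLocalization.atUnits A (Submonoid.powers t) (S := Localization.Away t) (by
    rintro _ ⟨n, rfl⟩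
    exact htu.pow n)
  have : Nontrivial (Localization.Away t) := e.injective.nontrivial
  refine not_isStandardSmooth_of_surjective _ ?_ (hP t hts)
  intro y
  obtain ⟨a, rfl⟩ := e.surjective y
  obtain ⟨c, rfl⟩ := hbij.2 a
  exact ⟨c, by simp⟩

variable {k : Type u} [Field k] (𝒞 : CurveData k)

theorem f_ne_one [IsAlgClosed k] : 𝒞.f ≠ 1 := by
  intro hf
  have := 𝒞.dom₁
  have key : ∀ S : Subalgebra k 𝒞.A₁, S = ⊥ → Module.Finite S 𝒞.A₁ → False := by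
    rintro S rfl hfin
    have : Module.Finite k (⊥ : Subalgebra k 𝒞.A₁) := Subalgebra.finite_bot
    have : Module.Finite k 𝒞.A₁ := Module.Finite.trans (⊥ : Subalgebra k 𝒞.A₁) 𝒞.A₁
    exact not_locally_smooth_of_finite k 𝒞.A₁ 𝒞.smooth₁
  refine key _ ?_ 𝒞.fin₁
  rw [hf]
  exact le_antisymm (Algebra.adjoin_le (by simp)) bot_le

theorem g_ne_one [IsAlgClosed k] : 𝒞.g ≠ 1 := by
  intro hg
  apply f_ne_one 𝒞
  apply 𝒞.inj₁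
  have h := 𝒞.fg
  rw [hg, map_one, mul_one] at h
  rw [h, map_one]


/-! ### Points with `x f` invertible factor through the overlap -/

theorem isLocalization₁ :
    @IsLocalization 𝒞.A₁ _ (Submonoid.powers 𝒞.f) 𝒞.A₁₂ _ 𝒞.r₁.toRingHom.toAlgebra := by
  let _ := 𝒞.r₁.toRingHom.toAlgebra
  rw [isLocalization_iff]
  refine ⟨?_, ?_, ?_⟩
  · rintro ⟨y, n, rfl⟩
    change IsUnit (𝒞.r₁ (𝒞.f ^ n))
    rw [map_pow]
    exact (IsUnit.of_mul_eq_one _ 𝒞.fg).pow n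
  · intro z
    obtain ⟨a, n, rfl⟩ := 𝒞.surj₁ z
    refine ⟨(a, ⟨𝒞.f ^ n, n, rfl⟩), ?_⟩
    change 𝒞.r₁ a * 𝒞.r₂ 𝒞.g ^ n * 𝒞.r₁ (𝒞.f ^ n) = 𝒞.r₁ a
    rw [map_pow, mul_assoc, ← mul_pow, mul_comm (𝒞.r₂ 𝒞.g), 𝒞.fg, one_pow, mul_one]
  · intro x y h
    exact ⟨1, by rw [𝒞.inj₁ h]⟩

theorem isLocalization₂ :
    @IsLocalization 𝒞.A₂ _ (Submonoid.powers 𝒞.g) 𝒞.A₁₂ _ 𝒞.r₂.toRingHom.toAlgebra := by
  let _ := 𝒞.r₂.toRingHom.toAlgebra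
  rw [isLocalization_iff]
  refine ⟨?_, ?_, ?_⟩
  · rintro ⟨y, n, rfl⟩
    change IsUnit (𝒞.r₂ (𝒞.g ^ n))
    rw [map_pow]
    exact (IsUnit.of_mul_eq_one _ (by rw [mul_comm]; exact 𝒞.fg)).pow n
  · intro z
    obtain ⟨a, n, rfl⟩ := 𝒞.surj₂ z
    refine ⟨(a, ⟨𝒞.g ^ n, n, rfl⟩), ?_⟩
    change 𝒞.r₂ a * 𝒞.r₁ 𝒞.f ^ n * 𝒞.r₂ (𝒞.g ^ n) = 𝒞.r₂ a
    rw [map_pow, mul_assoc, ← mul_pow, 𝒞.fg, one_pow, mul_one]
  · intro x y h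
    exact ⟨1, by rw [𝒞.inj₂ h]⟩

theorem exists_comp_r₁ {K : Type u} [CommRing K] [Algebra k K] (x : 𝒞.A₁ →ₐ[k] K)
    (hx : IsUnit (x 𝒞.f)) : ∃ z : 𝒞.A₁₂ →ₐ[k] K, z.comp 𝒞.r₁ = x := by
  let _ : Algebra 𝒞.A₁ 𝒞.A₁₂ := 𝒞.r₁.toRingHom.toAlgebra
  have : IsScalarTower k 𝒞.A₁ 𝒞.A₁₂ :=
    IsScalarTower.of_algebraMap_eq (fun c => (𝒞.r₁.commutes c).symm)
  have : IsLocalization (Submonoid.powers 𝒞.f) 𝒞.A₁₂ := isLocalization₁ 𝒞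
  have hu : ∀ y : Submonoid.powers 𝒞.f, IsUnit (x y) := by
    rintro ⟨_, n, rfl⟩
    rw [map_pow]
    exact hx.pow n
  refine ⟨IsLocalization.liftAlgHom (M := Submonoid.powers 𝒞.f) (f := x) hu, ?_⟩
  ext a
  change IsLocalization.lift hu (algebraMap 𝒞.A₁ 𝒞.A₁₂ a) = x a
  exact IsLocalization.lift_eq hu a

theorem exists_comp_r₂ {K : Type u} [CommRing K] [Algebra k K] (y : 𝒞.A₂ →ₐ[k] K)
    (hy : IsUnit (y 𝒞.g)) : ∃ z : 𝒞.A₁₂ →ₐ[k] K, z.comp 𝒞.r₂ = y := by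
  let _ : Algebra 𝒞.A₂ 𝒞.A₁₂ := 𝒞.r₂.toRingHom.toAlgebra
  have : IsScalarTower k 𝒞.A₂ 𝒞.A₁₂ :=
    IsScalarTower.of_algebraMap_eq (fun c => (𝒞.r₂.commutes c).symm)
  have : IsLocalization (Submonoid.powers 𝒞.g) 𝒞.A₁₂ := isLocalization₂ 𝒞
  have hu : ∀ t : Submonoid.powers 𝒞.g, IsUnit (y t) := by
    rintro ⟨_, n, rfl⟩
    rw [map_pow]
    exact hy.pow n
  refine ⟨IsLocalization.liftAlgHom (M := Submonoid.powers 𝒞.g) (f := y) hu, ?_⟩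
  ext a
  change IsLocalization.lift hu (algebraMap 𝒞.A₂ 𝒞.A₁₂ a) = y a
  exact IsLocalization.lift_eq hu a

/-! ### Nonzerodivisors of `R ⊗[k] A` -/

/-- Multiplication by `1 ⊗ a` is injective on `R ⊗[k] A` for `a ≠ 0` in a domain `A`. -/
theorem eq_zero_of_mul_one_tmul {R A : Type u} [CommRing R] [Algebra k R] [CommRing A]
    [IsDomain A] [Algebra k A] {a : A} (ha : a ≠ 0) (b : R ⊗[k] A)
    (h : b * (1 ⊗ₜ[k] a) = 0) : b = 0 := by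
  have hinj : Function.Injective (LinearMap.mulRight k a) :=
    fun x y hxy => mul_right_cancel₀ ha hxy
  have h2 := Module.Flat.lTensor_preserves_injective_linearMap (M := R)
    (LinearMap.mulRight k a) hinj
  have e : ∀ x : R ⊗[k] A,
      LinearMap.lTensor R (LinearMap.mulRight k a) x = x * (1 ⊗ₜ[k] a) := by
    intro x
    induction x using TensorProduct.induction_on with
    | zero => simp
    | tmul c d => simp [Algebra.TensorProduct.tmul_mul_tmul]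
    | add x y hx hy => simp only [map_add, hx, hy, add_mul]
  apply h2
  rw [e, h, map_zero]

/-! ### Principal ideal data are twists of the unit -/

section generic

variable {R : Type u} [CommRing R] {𝔹 : TwoChart R}

theorem pow_I₁ (D : IdealDatum 𝔹) (n : ℕ) : (D ^ n).I₁ = D.I₁ ^ n := by
  induction n with
  | zero => simp [Ideal.one_eq_top]
  | succ n ih => rw [pow_succ, pow_succ, IdealDatum.mul_I₁, ih]

theorem pow_I₂ (D : IdealDatum 𝔹) (n : ℕ) : (D ^ n).I₂ = D.I₂ ^ n := by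
  induction n with
  | zero => simp [Ideal.one_eq_top]
  | succ n ih => rw [pow_succ, pow_succ, IdealDatum.mul_I₂, ih]

theorem I₁_le_of_dvd {D E : IdealDatum 𝔹} (h : D ∣ E) : E.I₁ ≤ D.I₁ := by
  obtain ⟨c, rfl⟩ := h
  exact (Ideal.mul_le_left : D.I₁ * c.I₁ ≤ D.I₁)

theorem I₂_le_of_dvd {D E : IdealDatum 𝔹} (h : D ∣ E) : E.I₂ ≤ D.I₂ := by
  obtain ⟨c, rfl⟩ := h
  exact (Ideal.mul_le_left : D.I₂ * c.I₂ ≤ D.I₂)

/-- A principal ideal generated by a nonzerodivisor is free of rank one. -/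
noncomputable def equivOfGen {B : Type u} [CommRing B] (I : Ideal B) (t : B) (ht : t ∈ I)
    (hI : ∀ y ∈ I, ∃ c, c * t = y) (hnz : ∀ b, b * t = 0 → b = 0) : B ≃ₗ[B] I :=
  LinearEquiv.ofBijective (LinearMap.toSpanSingleton B I ⟨t, ht⟩) ⟨by
    rw [← LinearMap.ker_eq_bot, LinearMap.ker_eq_bot']
    intro b hb
    apply hnz
    have := congrArg Subtype.val hb
    simpa using this, by
    rintro ⟨y, hy⟩
    obtain ⟨c, rfl⟩ := hI y hy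
    exact ⟨c, Subtype.ext (by simp)⟩⟩

theorem equivOfGen_apply {B : Type u} [CommRing B] (I : Ideal B) (t : B) (ht : t ∈ I)
    (hI : ∀ y ∈ I, ∃ c, c * t = y) (hnz : ∀ b, b * t = 0 → b = 0) (b : B) :
    ((equivOfGen I t ht hI hnz b : I) : B) = b * t := rfl

/-- The image in `B₁₂` of a nonzerodivisor of `B₁` is a nonzerodivisor. -/
theorem eq_zero_of_mul_r₁ (𝔹 : TwoChart R) {t : 𝔹.B₁} (hnz : ∀ b, b * t = 0 → b = 0)
    (c : 𝔹.B₁₂) (h : c * 𝔹.r₁ t = 0) : c = 0 := by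
  obtain ⟨a, m, rfl⟩ := 𝔹.surj₁ c
  have h1 : 𝔹.r₁ (a * t) = 0 := by
    have h2 : 𝔹.r₁ 𝔹.f ^ m * (𝔹.r₁ a * 𝔹.r₂ 𝔹.g ^ m * 𝔹.r₁ t) = 0 := by rw [h, mul_zero]
    have h3 : 𝔹.r₁ 𝔹.f ^ m * (𝔹.r₁ a * 𝔹.r₂ 𝔹.g ^ m * 𝔹.r₁ t) =
        (𝔹.r₁ 𝔹.f * 𝔹.r₂ 𝔹.g) ^ m * 𝔹.r₁ (a * t) := by
      rw [map_mul]; ring
    rw [h3, 𝔹.fg, one_pow, one_mul] at h2
    exact h2
  obtain ⟨j, hj⟩ := 𝔹.ker₁ _ h1
  have h4 : 𝔹.f ^ j * a = 0 := hnz _ (by rw [← hj]; ring)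
  have h5 : 𝔹.r₁ a = 0 := by
    have h6 : 𝔹.r₂ 𝔹.g ^ j * 𝔹.r₁ (𝔹.f ^ j * a) = 0 := by rw [h4, map_zero, mul_zero]
    have h7 : 𝔹.r₂ 𝔹.g ^ j * 𝔹.r₁ (𝔹.f ^ j * a) = (𝔹.r₁ 𝔹.f * 𝔹.r₂ 𝔹.g) ^ j * 𝔹.r₁ a := by
      rw [map_mul, map_pow]; ring
    rw [h7, 𝔹.fg, one_pow, one_mul] at h6
    exact h6
  rw [h5, zero_mul]

/-- An ideal datum with both chart ideals principal, generated by nonzerodivisors which differ
by `u ^ n` on the overlap, is the `n`-th twist of the unit. -/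
noncomputable def isoOfGen (D : IdealDatum 𝔹) (n : ℤ) (t₁ : 𝔹.B₁) (t₂ : 𝔹.B₂)
    (h₁ : D.I₁ = Ideal.span {t₁}) (h₂ : D.I₂ = Ideal.span {t₂})
    (hnz₁ : ∀ b, b * t₁ = 0 → b = 0) (hnz₂ : ∀ b, b * t₂ = 0 → b = 0)
    (hcomp : 𝔹.r₁ t₁ = ((𝔹.u ^ n : 𝔹.B₁₂ˣ) : 𝔹.B₁₂) * 𝔹.r₂ t₂) :
    (GluedModule.unit 𝔹).Iso (D.toGlued.twist n) where
  e₁ := equivOfGen D.I₁ t₁ (h₁ ▸ Ideal.mem_span_singleton_self t₁)
    (fun y hy => Ideal.mem_span_singleton'.mp (h₁ ▸ hy)) hnz₁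
  e₂ := equivOfGen D.I₂ t₂ (h₂ ▸ Ideal.mem_span_singleton_self t₂)
    (fun y hy => Ideal.mem_span_singleton'.mp (h₂ ▸ hy)) hnz₂
  e₁₂ := equivOfGen D.I₁₂ (𝔹.r₁ t₁) (D.r₁_mem (h₁ ▸ Ideal.mem_span_singleton_self t₁))
    (fun y hy => by
      have hy' : y ∈ Ideal.span {𝔹.r₁ t₁} := by
        have : D.I₁₂ = Ideal.span {𝔹.r₁ t₁} := by
          unfold IdealDatum.I₁₂
          rw [h₁, Ideal.map_span, Set.image_singleton]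
        rw [← this]; exact hy
      exact Ideal.mem_span_singleton'.mp hy')
    (eq_zero_of_mul_r₁ 𝔹 hnz₁)
  comm₁ b := Subtype.ext (by
    rw [equivOfGen_apply]
    change 𝔹.r₁ b * 𝔹.r₁ t₁ = 𝔹.r₁ ((equivOfGen D.I₁ t₁ _ _ hnz₁ b : D.I₁) : 𝔹.B₁)
    rw [equivOfGen_apply, map_mul])
  comm₂ b := Subtype.ext (by
    rw [equivOfGen_apply]
    change 𝔹.r₂ b * 𝔹.r₁ t₁ = ((𝔹.u ^ n : 𝔹.B₁₂ˣ) : 𝔹.B₁₂) *
      𝔹.r₂ ((equivOfGen D.I₂ t₂ _ _ hnz₂ b : D.I₂) : 𝔹.B₂)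
    rw [equivOfGen_apply, map_mul, hcomp]
    ring)

/-- The ideal datum of the zeros of `f - 1` (they lie in the overlap). -/
def zDatum (𝔹 : TwoChart R) : IdealDatum 𝔹 where
  I₁ := Ideal.span {𝔹.f - 1}
  I₂ := Ideal.span {1 - 𝔹.g}
  compat := by
    rw [Ideal.map_span, Ideal.map_span, Set.image_singleton, Set.image_singleton, map_sub,
      map_sub, map_one, map_one]
    have h : 𝔹.r₁ 𝔹.f - 1 = 𝔹.r₁ 𝔹.f * (1 - 𝔹.r₂ 𝔹.g) := by rw [mul_sub, mul_one, 𝔹.fg]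
    rw [h]
    exact Ideal.span_singleton_mul_left_unit 𝔹.u.isUnit _

/-- `(Z^n)⟨n⟩ ≅ O`: multiplication by `(f - 1)^n`, provided `f - 1` and `1 - g` are
nonzerodivisors. -/
noncomputable def zPowIso (𝔹 : TwoChart R) (n : ℕ)
    (hnz₁ : ∀ b : 𝔹.B₁, b * (𝔹.f - 1) = 0 → b = 0)
    (hnz₂ : ∀ b : 𝔹.B₂, b * (1 - 𝔹.g) = 0 → b = 0) :
    (GluedModule.unit 𝔹).Iso ((zDatum 𝔹 ^ n).toGlued.twist (n : ℤ)) :=
  isoOfGen (zDatum 𝔹 ^ n) n ((𝔹.f - 1) ^ n) ((1 - 𝔹.g) ^ n)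
    (by rw [pow_I₁]; exact Ideal.span_singleton_pow _ _)
    (by rw [pow_I₂]; exact Ideal.span_singleton_pow _ _)
    (fun b hb => by
      induction n generalizing b with
      | zero => simpa using hb
      | succ n ih => exact ih _ (hnz₁ _ (by rw [← hb]; ring)))
    (fun b hb => by
      induction n generalizing b with
      | zero => simpa using hb
      | succ n ih => exact ih _ (hnz₂ _ (by rw [← hb]; ring)))
    (by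
      rw [zpow_natCast, Units.val_pow_eq_pow_val, TwoChart.u_val, map_pow, map_pow, ← mul_pow,
        map_sub, map_sub, map_one, map_one, mul_sub, mul_one, 𝔹.fg])

end generic

/-! ### Products of overlap points -/

section main

variable (κ : Type u) [Field κ] [Algebra k κ]

/-- `D` is a product of `N` point data of points of the overlap. -/
def IsOvlProd (N : ℕ) (D : IdealDatum (𝒞.chart κ)) : Prop :=
  ∃ w : Fin N → (𝒞.A₁₂ →ₐ[k] κ), ∏ i, pt₁ 𝒞 κ ((w i).comp 𝒞.r₁) = D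

variable {κ} in
theorem isOvlProd_mul {N N' : ℕ} {D D' : IdealDatum (𝒞.chart κ)} (h : IsOvlProd 𝒞 κ N D)
    (h' : IsOvlProd 𝒞 κ N' D') : IsOvlProd 𝒞 κ (N + N') (D * D') := by
  obtain ⟨w, rfl⟩ := h
  obtain ⟨w', rfl⟩ := h'
  refine ⟨Fin.append w w', ?_⟩
  rw [Fin.prod_univ_add]
  simp only [Fin.append_left, Fin.append_right]

variable {κ} in
theorem isOvlProd_pow {N : ℕ} {D : IdealDatum (𝒞.chart κ)} (h : IsOvlProd 𝒞 κ N D) (n : ℕ) :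
    IsOvlProd 𝒞 κ (n * N) (D ^ n) := by
  induction n with
  | zero =>
    rw [Nat.zero_mul, pow_zero]
    exact ⟨Fin.elim0, by simp⟩
  | succ n ih =>
    rw [Nat.succ_mul, pow_succ]
    exact isOvlProd_mul 𝒞 ih h

variable {κ} in
theorem isOvlProd_pt₁ {m : ℕ} (x : Fin m → 𝒞.A₁ →ₐ[k] κ) (hx : ∀ j, x j 𝒞.f = 1) :
    IsOvlProd 𝒞 κ m (∏ j, pt₁ 𝒞 κ (x j)) := by
  have h : ∀ j, ∃ z : 𝒞.A₁₂ →ₐ[k] κ, z.comp 𝒞.r₁ = x j :=
    fun j => exists_comp_r₁ 𝒞 (x j) (by rw [hx j]; exact isUnit_one)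
  choose w hw using h
  exact ⟨w, by simp only [hw]⟩

variable {κ} in
theorem isOvlProd_pt₂
    (hOvl : ∀ z : 𝒞.A₁₂ →ₐ[k] κ, pt₁ 𝒞 κ (z.comp 𝒞.r₁) = pt₂ 𝒞 κ (z.comp 𝒞.r₂))
    {m : ℕ} (y : Fin m → 𝒞.A₂ →ₐ[k] κ) (hy : ∀ j, y j 𝒞.g = 1) :
    IsOvlProd 𝒞 κ m (∏ j, pt₂ 𝒞 κ (y j)) := by
  have h : ∀ j, ∃ z : 𝒞.A₁₂ →ₐ[k] κ, z.comp 𝒞.r₂ = y j :=
    fun j => exists_comp_r₂ 𝒞 (y j) (by rw [hy j]; exact isUnit_one)
  choose w hw using h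
  exact ⟨w, by simp only [hOvl, hw]⟩

variable {κ} in
theorem exists_split
    (hOvl : ∀ z : 𝒞.A₁₂ →ₐ[k] κ, pt₁ 𝒞 κ (z.comp 𝒞.r₁) = pt₂ 𝒞 κ (z.comp 𝒞.r₂))
    {m₁ m₂ : ℕ} {D : IdealDatum (𝒞.chart κ)} (h : IsOvlProd 𝒞 κ (m₁ + m₂) D) :
    ∃ (x : Fin m₁ → 𝒞.A₁ →ₐ[k] κ) (y : Fin m₂ → 𝒞.A₂ →ₐ[k] κ),
      (∏ j, pt₁ 𝒞 κ (x j)) * (∏ j, pt₂ 𝒞 κ (y j)) = D := by
  obtain ⟨w, rfl⟩ := h
  refine ⟨fun j => (w (Fin.castAdd m₂ j)).comp 𝒞.r₁, fun j => (w (Fin.natAdd m₁ j)).comp 𝒞.r₂, ?_⟩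
  rw [Fin.prod_univ_add]
  simp only [hOvl]

/-- **(Triv), relative to (Ovl) and (Fac).**  A trivial point-product family with any prescribed
chart pattern: the points are the zeros of `(f - 1)^n`. -/
theorem exists_trivial_fam_of [IsAlgClosed k]
    (hOvl : ∀ z : 𝒞.A₁₂ →ₐ[k] κ, pt₁ 𝒞 κ (z.comp 𝒞.r₁) = pt₂ 𝒞 κ (z.comp 𝒞.r₂))
    (hFac : ∀ J : IdealDatum (𝒞.chart κ), J.I₁ ≠ ⊥ →
      ∃ (m₁ m₂ : ℕ) (x : Fin m₁ → 𝒞.A₁ →ₐ[k] κ) (y : Fin m₂ → 𝒞.A₂ →ₐ[k] κ),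
        J = (∏ j, pt₁ 𝒞 κ (x j)) * (∏ j, pt₂ 𝒞 κ (y j))) :
    ∃ n₀ : ℕ, ∀ n m₁ m₂ : ℕ, m₁ + m₂ = n * n₀ →
      ∃ (x : Fin m₁ → 𝒞.A₁ →ₐ[k] κ) (y : Fin m₂ → 𝒞.A₂ →ₐ[k] κ),
        Nonempty ((fam 𝒞 κ n x y).Iso (unit (𝒞.chart κ))) := by
  have := 𝒞.dom₁
  have := 𝒞.dom₂
  have hf1 : 𝒞.f - 1 ≠ 0 := sub_ne_zero.mpr (f_ne_one 𝒞)
  have hg1 : 1 - 𝒞.g ≠ 0 := sub_ne_zero.mpr (g_ne_one 𝒞).symm
  have hF : (𝒞.chart κ).f - 1 = (1 : κ) ⊗ₜ[k] (𝒞.f - 1) := by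
    change (1 : κ) ⊗ₜ[k] 𝒞.f - 1 = _
    rw [TensorProduct.tmul_sub, Algebra.TensorProduct.one_def]
  have hG : 1 - (𝒞.chart κ).g = (1 : κ) ⊗ₜ[k] (1 - 𝒞.g) := by
    change 1 - (1 : κ) ⊗ₜ[k] 𝒞.g = _
    rw [TensorProduct.tmul_sub, Algebra.TensorProduct.one_def]
  have hnz₁ : ∀ b : (𝒞.chart κ).B₁, b * ((𝒞.chart κ).f - 1) = 0 → b = 0 := by
    intro b hb
    rw [hF] at hb
    exact eq_zero_of_mul_one_tmul hf1 b hb
  have hnz₂ : ∀ b : (𝒞.chart κ).B₂, b * (1 - (𝒞.chart κ).g) = 0 → b = 0 := by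
    intro b hb
    rw [hG] at hb
    exact eq_zero_of_mul_one_tmul hg1 b hb
  have hnt : Nontrivial (κ ⊗[k] 𝒞.A₁) := inferInstance
  have hZ₁ : (zDatum (𝒞.chart κ)).I₁ ≠ ⊥ := by
    intro h
    have hmem : (𝒞.chart κ).f - 1 ∈ (zDatum (𝒞.chart κ)).I₁ := Ideal.mem_span_singleton_self _
    rw [h, Ideal.mem_bot] at hmem
    have h1 : (1 : (𝒞.chart κ).B₁) = 0 := hnz₁ 1 (by rw [one_mul, hmem])
    exact one_ne_zero (α := κ ⊗[k] 𝒞.A₁) h1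
  obtain ⟨a, b, x₀, y₀, hfac⟩ := hFac _ hZ₁
  have hx₀ : ∀ j, x₀ j 𝒞.f = 1 := by
    intro j
    have hdvd : pt₁ 𝒞 κ (x₀ j) ∣ zDatum (𝒞.chart κ) := by
      rw [hfac]
      exact (Finset.dvd_prod_of_mem _ (Finset.mem_univ j)).mul_right _
    have hmem : (𝒞.chart κ).f - 1 ∈ (pt₁ 𝒞 κ (x₀ j)).I₁ :=
      I₁_le_of_dvd hdvd (Ideal.mem_span_singleton_self _)
    have h0 : ev₁ 𝒞 κ (x₀ j) ((𝒞.chart κ).f - 1) = 0 := hmem
    rw [hF, ev₁_tmul, one_mul, map_sub, map_one, sub_eq_zero] at h0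
    exact h0
  have hy₀ : ∀ j, y₀ j 𝒞.g = 1 := by
    intro j
    have hdvd : pt₂ 𝒞 κ (y₀ j) ∣ zDatum (𝒞.chart κ) := by
      rw [hfac]
      exact (Finset.dvd_prod_of_mem _ (Finset.mem_univ j)).mul_left _
    have hmem : 1 - (𝒞.chart κ).g ∈ (pt₂ 𝒞 κ (y₀ j)).I₂ :=
      I₂_le_of_dvd hdvd (Ideal.mem_span_singleton_self _)
    have h0 : ev₂ 𝒞 κ (y₀ j) (1 - (𝒞.chart κ).g) = 0 := hmem
    rw [hG, ev₂_tmul, one_mul, map_sub, map_one, sub_eq_zero] at h0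
    exact h0.symm
  have hQ : IsOvlProd 𝒞 κ (a + b) (zDatum (𝒞.chart κ)) := by
    rw [hfac]
    exact isOvlProd_mul 𝒞 (isOvlProd_pt₁ 𝒞 x₀ hx₀) (isOvlProd_pt₂ 𝒞 hOvl y₀ hy₀)
  refine ⟨a + b, fun n m₁ m₂ hm => ?_⟩
  have hQn := isOvlProd_pow 𝒞 hQ n
  rw [← hm] at hQn
  obtain ⟨x, y, hxy⟩ := exists_split 𝒞 hOvl hQn
  refine ⟨x, y, ⟨?_⟩⟩
  have hfam : fam 𝒞 κ n x y = (zDatum (𝒞.chart κ) ^ n).toGlued.twist (n : ℤ) := by
    unfold fam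
    rw [hxy]
  rw [hfam]
  exact (zPowIso (𝒞.chart κ) n hnz₁ hnz₂).symm

end main

end Fermat.Agent.S25.CONN.Triv
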